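/-
S40 (row 38, `moonshots` rows 62/63), NEW-PACK, layer 1 (helper15): **the hypothesis (H-new) of
`S40/Top/Final.s40_of_blocks` from the three leaf contracts T4′ / T5′ / T6′.**

Setting: `p` an odd prime, level `M * p`, `p ∤ M`, `A` a place of `Q̄` over `p`,
`V ≤ Wθ ≤ J₀(M p)[p](Q̄)` a finite Galois-stable subgroup contained in the `p`-new part.
Everything happens at ONE good level `K` (for `(A, p)`, `P3G/Assembly/LevelStep.IsGoodLevel`) with
its vertical data `S₂ : SecondVal`, `ϖ` (binder block of `S33/L/Contracts`); there is no comparison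
between levels.

The file is abstract in two predicates on functions at a level (`LevelPred`):
* `Norm` — "`f_K` is a NORMALISED representative" (bi-unit for `V₁ = gaussVS`, `V₂ = S₂.V`; the orders
  of its two reductions at the supersingular points are divisible by `p`; …);
* `LamZ` — "`Λ_∞ = Λ_0 = 0`" (both reductions are `p`-th powers up to constants);
and the three contracts are
* `T6Out` : every `x ∈ V` has a normalised representative at every big good level
  (the output of (EV′) + (PEU) + non-Eisenstein);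
* `T5Out` : a normalised representative of some `x ∈ Wθ` with `Λ ≠ 0` gives the conclusion
  (`W.IsResiduallyModularOfLevel p M`: (F4) + (DLOG) + Hecke + Deligne–Serre);
* `T4Out` : a normalised representative of a `p`-new `x` with `Λ = 0` gives `τ x = χ_p(τ) x` for all
  `τ ∈ I_A` ((FT)/[M4]);
**`hnew_of_outs`** : the dichotomy consumed by `Top/Final`.
-/
import Mathlib
import Fermat.Agent.S40.Top.Final
import Fermat.Agent.S33.L.Contracts
import Fermat.Agent.S33.L.PointsUniform

set_option autoImplicit false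
set_option linter.unusedSectionVars false
set_option linter.unusedVariables false
set_option linter.dupNamespace false
set_option linter.style.haveILetI false

open ModularCurve AlgebraicCurve IntermediateField

noncomputable section

namespace Fermat.Agent.S40.New.Pack

open Fermat.Agent.N4.Setting Fermat.Agent.N4.Chart Fermat.Agent.N4.S18Glue Fermat.Agent.N4.BigDVR
  Fermat.Agent.P3G.Assembly.LevelStep
  Fermat.Agent.P3G.GammaDict Fermat.Agent.P3G.GeomStep
  Fermat.Agent.P3G.Gamma Fermat.Agent.P3G.GammaAut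
  Fermat.Agent.N4F.C Fermat.Agent.N4F.C.Levels Fermat.Agent.N4F.C.Galois
  Fermat.Agent.N4F.Res Fermat.Agent.S40.Top.Eigen
open Fermat.Agent.S14.GaloisModule (chi)

local notation "Qbar" => AlgebraicClosure ℚ
local notation "Γ" => (AlgebraicClosure ℚ ≃ₐ[ℚ] AlgebraicClosure ℚ)

/-! ### Representatives -/

/-- `f` represents the `p`-torsion class `x`: `x = [D]`, `div f = p D`. -/
def IsRep {N : ℕ} [NeZero N] (p : ℕ) (x : JZero N) (f : Fb N) : Prop :=
  ∃ D : Divisor.degZero (K := Qb) (F := Fb N),
    Pic0.mk D = x ∧ IsDivOf f (p • (D : Divisor Qb (Fb N)))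

/-- Every `p`-torsion class has a representative. -/
theorem exists_isRep {N : ℕ} [NeZero N] (p : ℕ) (x : JZero N) (hx : p • x = 0) :
    ∃ f : Fb N, IsRep p x f := by
  obtain ⟨D, f, hD, hf⟩ := exists_isDivOf_of_torsion N x p hx
  exact ⟨f, D, hD, hf⟩

/-! ### Predicates at a level, and the three contracts -/

section Contracts

variable (M p : ℕ) [NeZero M] [Fact p.Prime] (A : ValuationSubring Qbar)

/-- A property of a function of level `M p` at a good level `K` with its vertical data
(`S₂`, `ϖ`). -/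
abbrev LevelPred : Type :=
  ∀ (K : IntermediateField ℚ Qbar) (_ : IsGoodLevel A p K)
    [IsDiscreteValuationRing ↥(baseRing A K)]
    (_ : Fermat.Agent.P3G.FibreTwo.SecondVal (Lvl K) M p (baseRing A K))
    (_ : ↥(baseRing A K)), FF (Lvl K) (M * p) → Prop

variable {M p A}

/-- **T6′, positive form**: every `x ∈ V` has a NORMALISED representative at every good level
above a number field `K₁` (depending on `x`), for every `S₂` and every uniformiser. -/
def T6Out [NeZero p] (Norm : LevelPred M p A) (V : Submodule (ZMod p) (Jtors (M * p) p)) : Prop :=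
  ∀ x ∈ V, ∃ K₁ : IntermediateField ℚ Qbar, FiniteDimensional ℚ K₁ ∧
    ∀ (K : IntermediateField ℚ Qbar) (hK : IsGoodLevel A p K)
      [IsDiscreteValuationRing ↥(baseRing A K)]
      (S₂ : Fermat.Agent.P3G.FibreTwo.SecondVal (Lvl K) M p (baseRing A K))
      (ϖ : ↥(baseRing A K)), Irreducible ϖ → K₁ ≤ K →
      ∃ fK : FF (Lvl K) (M * p),
        IsRep p ((x : Jtors (M * p) p) : JZero (M * p)) (levK (M * p) K fK) ∧ Norm K hK S₂ ϖ fK

/-- **T5′**: a normalised representative with `Λ ≠ 0` of a class in `Wθ` gives the conclusion. -/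
def T5Out [NeZero p] (Norm LamZ : LevelPred M p A) (W : WeierstrassCurve ℤ) : Prop :=
  ∀ x ∈ Wtheta W p (M * p),
    ∀ (K : IntermediateField ℚ Qbar) (hK : IsGoodLevel A p K)
      [IsDiscreteValuationRing ↥(baseRing A K)]
      (S₂ : Fermat.Agent.P3G.FibreTwo.SecondVal (Lvl K) M p (baseRing A K))
      (ϖ : ↥(baseRing A K)), Irreducible ϖ →
      ∀ fK : FF (Lvl K) (M * p),
        IsRep p ((x : Jtors (M * p) p) : JZero (M * p)) (levK (M * p) K fK) →
        Norm K hK S₂ ϖ fK → ¬ LamZ K hK S₂ ϖ fK → W.IsResiduallyModularOfLevel p M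

/-- **T4′**: a normalised representative with `Λ = 0` of a `p`-new class: inertia acts on the class
through `χ_p`. -/
def T4Out [NeZero p] (Norm LamZ : LevelPred M p A) : Prop :=
  ∀ x : Jtors (M * p) p, (x : JZero (M * p)) ∈ Fermat.Agent.P4.Push.newPart M p →
    ∀ (K : IntermediateField ℚ Qbar) (hK : IsGoodLevel A p K)
      [IsDiscreteValuationRing ↥(baseRing A K)]
      (S₂ : Fermat.Agent.P3G.FibreTwo.SecondVal (Lvl K) M p (baseRing A K))
      (ϖ : ↥(baseRing A K)), Irreducible ϖ →
      ∀ fK : FF (Lvl K) (M * p),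
        IsRep p (x : JZero (M * p)) (levK (M * p) K fK) →
        Norm K hK S₂ ϖ fK → LamZ K hK S₂ ϖ fK →
        ∀ τ ∈ A.inertiaSubgroupIn ℚ,
          galTors (M * p) p τ x = ((chi p τ : (ZMod p)ˣ) : ZMod p) • x

end Contracts

/-! ### The dichotomy -/

section Main

variable {M p : ℕ} [NeZero M] [NeZero p] [Fact p.Prime] {A : ValuationSubring Qbar}

/-- **(H-new) from the three contracts**, for a given place `A ∣ p`. -/
theorem hnew_of_outs {W : WeierstrassCurve ℤ} (hpM : ¬ p ∣ M) (hA : A.LiesOverPrime p)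
    {Norm LamZ : LevelPred M p A}
    (V : Submodule (ZMod p) (Jtors (M * p) p)) [Finite V]
    (hle : V ≤ Wtheta W p (M * p))
    (hnew : ∀ x ∈ V, ((x : Jtors (M * p) p) : JZero (M * p)) ∈ Fermat.Agent.P4.Push.newPart M p)
    (h6 : T6Out Norm V) (h5 : T5Out Norm LamZ W) (h4 : T4Out Norm LamZ) :
    W.IsResiduallyModularOfLevel p M ∨
      ∀ τ ∈ A.inertiaSubgroupIn ℚ, ∀ x ∈ V,
        galTors (M * p) p τ x = ((chi p τ : (ZMod p)ˣ) : ZMod p) • x := by
  classical
  have hp : p.Prime := Fact.out
  -- the number fields `K₁ x`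
  choose K₁ hK₁fin hK₁ using fun x : V => h6 x.1 x.2
  haveI : ∀ x : V, FiniteDimensional ℚ (K₁ x) := hK₁fin
  haveI : FiniteDimensional ℚ ↥(⨆ x : V, K₁ x) := IntermediateField.finiteDimensional_iSup_of_finite
  -- ONE good level above all of them, with its vertical data
  obtain ⟨K, hle', hK⟩ := exists_isGoodLevel_ge hp hA (⨆ x : V, K₁ x)
  haveI := hK.dvr
  haveI : IsFractionRing ↥(baseRing A K) (Lvl K) := isFractionRing_trSubring A K
  obtain ⟨S₂⟩ := Fermat.Agent.S33.L.PointsUniform.nonempty_secondVal_lvl M p hpM A hA K hK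
  obtain ⟨ϖ, hϖ⟩ := IsDiscreteValuationRing.exists_irreducible ↥(baseRing A K)
  -- the normalised representatives
  have hrep : ∀ x : V, ∃ fK : FF (Lvl K) (M * p),
      IsRep p ((x : Jtors (M * p) p) : JZero (M * p)) (levK (M * p) K fK) ∧ Norm K hK S₂ ϖ fK :=
    fun x => hK₁ x K hK S₂ ϖ hϖ ((le_iSup K₁ x).trans hle')
  choose fK hfK hnorm using hrep
  by_cases hlam : ∀ x : V, LamZ K hK S₂ ϖ (fK x)
  · right
    intro τ hτ x hx
    exact h4 x (hnew x hx) K hK S₂ ϖ hϖ (fK ⟨x, hx⟩) (hfK ⟨x, hx⟩) (hnorm ⟨x, hx⟩)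
      (hlam ⟨x, hx⟩) τ hτ
  · left
    obtain ⟨x, hx⟩ := not_forall.mp hlam
    exact h5 x.1 (hle x.2) K hK S₂ ϖ hϖ (fK x) (hfK x) (hnorm x) hx

/-- **(H-new) in the exact shape of `Top/Final.s40_of_blocks`** (hypothesis `hnew` there), from the
three contracts at every place `A ∣ p`.  `C` is the abstract predicate "`V` is a copy of `E[p]`"
of `Top/Final` (`CopyOfE`); only the producer of `T6Out` uses it. -/
theorem hnew_of_contracts {W : WeierstrassCurve ℤ} (hpM : ¬ p ∣ M)
    (C : Submodule (ZMod p) (Jtors (M * p) p) → Prop)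
    (Norm LamZ : ∀ A : ValuationSubring Qbar, LevelPred M p A)
    (h6 : ∀ A : ValuationSubring Qbar, A.LiesOverPrime p →
      ∀ V : Submodule (ZMod p) (Jtors (M * p) p), IsSimpleGal V → V ≤ Wtheta W p (M * p) → C V →
        (∀ x ∈ V, ((x : Jtors (M * p) p) : JZero (M * p)) ∈ Fermat.Agent.P4.Push.newPart M p) →
        T6Out (Norm A) V)
    (h5 : ∀ A : ValuationSubring Qbar, A.LiesOverPrime p → T5Out (Norm A) (LamZ A) W)
    (h4 : ∀ A : ValuationSubring Qbar, A.LiesOverPrime p → T4Out (Norm A) (LamZ A)) :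
    ∀ V : Submodule (ZMod p) (Jtors (M * p) p), IsSimpleGal V → V ≤ Wtheta W p (M * p) → C V →
      (∀ x ∈ V, ((x : Jtors (M * p) p) : JZero (M * p)) ∈ Fermat.Agent.P4.Push.newPart M p) →
      W.IsResiduallyModularOfLevel p M ∨
        ∃ A : ValuationSubring Qbar, A.LiesOverPrime p ∧
          ∀ τ ∈ A.inertiaSubgroupIn ℚ, ∀ x ∈ V,
            galTors (M * p) p τ x = ((chi p τ : (ZMod p)ˣ) : ZMod p) • x := by
  intro V hV hle hC hnew
  have hp : p.Prime := Fact.out
  obtain ⟨A, hA⟩ := Fermat.Agent.S54.exists_valuationSubring_liesOverPrime p hp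
  haveI : Finite (Jtors (M * p) p) := (inputs (M * p)).torsionFinite p hp.pos
  haveI : Finite V := Finite.of_injective (fun x : V => (x : Jtors (M * p) p)) Subtype.val_injective
  rcases hnew_of_outs hpM hA V hle hnew (h6 A hA V hV hle hC hnew) (h5 A hA) (h4 A hA) with h | h
  · exact Or.inl h
  · exact Or.inr ⟨A, hA, h⟩

end Main

end Fermat.Agent.S40.New.Pack
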