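/-
S40/S44 (row 38, `moonshots` rows 62–67), NEW-PACK, layer 2 (helper15): **the pair `(Norm, LamZ)` of
record**, as `New/Pack.LevelPred`s, and the contract `T4Out` for it.

At a good level `K` (place `A ∣ p`, level `M p`, `p ∤ M`) with vertical data `S₂`, `ϖ`, a function
`f_K ∈ FF (Lvl K) (M p)` is NORMALISED (`norm M p A`) when

* `M4/Final.M4NormF` : (n1) `ζ_p ∈ O_K`, (n2) `f_K` is a unit of `V₁ = gaussVS` and of `V₂ = S₂.V`,
  (n3) EXACT level norms `N_α f_K = a' ^ p`, `N_β f_K = b' ^ p`, (n4) zeros and poles `K`-rational;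
* `SSVanish` : (n6′) `m^∞_s(f_K) = 0` at every SUPERSINGULAR place `s` of the finite chart of the
  special fibre `FF κ M` (`W/F4Place.IsSSFin`, `W/Lambda.mInf`), for every choice of the
  propositional data (`¬ p ∣ M`, irreducibility of `ϖ`, `CharP κ p`, `hA2`) these notions depend on;

and `lamZ M p A` is `Λ_∞(f_K) = 0` (`M4/Final.lamInfZ`, `W/Lambda.lamInf`).

* `t4Out` : `Pack.T4Out (norm M p A) (lamZ M p A)` (= `M4/Final.t4Out_final_lam`, [M4] closed);
* `norm_iff`, `ssVanish_of`, `SSVanish.apply` : unfolding lemmas for the producer (T6′) and the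
  consumer (T5′, `New/T5`).
-/
import Mathlib
import Fermat.Agent.S40.New.Pack
import Fermat.Agent.S40.M4.Final
import Fermat.Agent.S40.W.F4Good

set_option autoImplicit false
set_option linter.unusedSectionVars false
set_option linter.unusedVariables false
set_option linter.dupNamespace false
set_option linter.style.haveILetI false

open ModularCurve AlgebraicCurve IntermediateField

noncomputable section

namespace Fermat.Agent.S40.New.Norm

open Fermat.Agent.N4.Setting Fermat.Agent.N4.Chart Fermat.Agent.N4.S18Glue Fermat.Agent.N4.BigDVR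
  Fermat.Agent.N4.FibreEmbedding
  Fermat.Agent.P3G.Assembly.StepOfLevel Fermat.Agent.P3G.Assembly.LevelStep
  Fermat.Agent.N4F.C Fermat.Agent.N4F.C.Levels Fermat.Agent.N4F.C.Galois
  Fermat.Agent.N4F.E.GaussDVR Fermat.Agent.S33.L.Contracts
  Fermat.Agent.N4F.Res Fermat.Agent.P3G
  Fermat.Agent.S40.New.Pack Fermat.Agent.S40.M4.Final
  Fermat.Agent.S40.W

local notation "Qbar" => AlgebraicClosure ℚ

section Defs

variable (M p : ℕ) [NeZero M] [Fact p.Prime] (A : ValuationSubring Qbar)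
  (K : IntermediateField ℚ Qbar)
  [IsDiscreteValuationRing ↥(baseRing A K)]
  (S₂ : Fermat.Agent.P3G.FibreTwo.SecondVal (Lvl K) M p (baseRing A K))
  (ϖ : ↥(baseRing A K))

/-- **(n6′)**: `m^∞_s(f_K) = 0` at every supersingular place `s` of the finite chart of the special
fibre.  The four leading binders are propositions (the data `IsSSFin`, `mInf` are stated with). -/
def SSVanish (fK : FF (Lvl K) (M * p)) : Prop :=
  ∀ (hpM : ¬ p ∣ M) (hϖ : Irreducible ϖ)
    (_ : CharP (IsLocalRing.ResidueField ↥(baseRing A K)) p)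
    (hA2 : ∀ x : ↥(gaussSubalgebra (Lvl K) M (baseRing A K)),
      theta (Lvl K) M (baseRing A K) x ∈
        modularFunctionFieldFullC (IsLocalRing.ResidueField ↥(baseRing A K)) M)
    (s : Place (IsLocalRing.ResidueField ↥(baseRing A K))
      (FF (IsLocalRing.ResidueField ↥(baseRing A K)) M)),
    jF (IsLocalRing.ResidueField ↥(baseRing A K)) M ∈ s.toValuationSubring →
    F4Place.IsSSFin (Lvl K) M p (baseRing A K) (Fermat.Agent.P3G.GammaV2.lvlToComplex K) hpM hA2
      S₂ s →
    Lambda.mInf (Lvl K) M p (baseRing A K) (SecondValBridge.ofTwo S₂)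
      (Fermat.Agent.P3G.GammaV2.lvlToComplex K) hpM hA2 hϖ s fK = 0

variable {M p A K S₂ ϖ}

/-- (n6′) from its statement for ONE choice of the propositional data. -/
theorem ssVanish_of {fK : FF (Lvl K) (M * p)} (hpM : ¬ p ∣ M) (hϖ : Irreducible ϖ)
    [inst : CharP (IsLocalRing.ResidueField ↥(baseRing A K)) p]
    (hA2 : ∀ x : ↥(gaussSubalgebra (Lvl K) M (baseRing A K)),
      theta (Lvl K) M (baseRing A K) x ∈
        modularFunctionFieldFullC (IsLocalRing.ResidueField ↥(baseRing A K)) M)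
    (h : ∀ s : Place (IsLocalRing.ResidueField ↥(baseRing A K))
        (FF (IsLocalRing.ResidueField ↥(baseRing A K)) M),
      jF (IsLocalRing.ResidueField ↥(baseRing A K)) M ∈ s.toValuationSubring →
      F4Place.IsSSFin (Lvl K) M p (baseRing A K) (Fermat.Agent.P3G.GammaV2.lvlToComplex K) hpM hA2
        S₂ s →
      Lambda.mInf (Lvl K) M p (baseRing A K) (SecondValBridge.ofTwo S₂)
        (Fermat.Agent.P3G.GammaV2.lvlToComplex K) hpM hA2 hϖ s fK = 0) :
    SSVanish M p A K S₂ ϖ fK := by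
  intro hpM' hϖ' inst' hA2' s hj hs
  obtain rfl : inst = inst' := Subsingleton.elim _ _
  exact h s hj hs

end Defs

/-! ### The pair of record -/

/-- (n6′) as a `LevelPred`. -/
def ssVanish (M p : ℕ) [NeZero M] [Fact p.Prime] (A : ValuationSubring Qbar) : LevelPred M p A :=
  fun K _ _ S₂ ϖ fK => SSVanish M p A K S₂ ϖ fK

/-- **`Norm` of record**: `M4NormF` (n1)–(n4) and (n6′). -/
def norm (M p : ℕ) [NeZero M] [Fact p.Prime] (A : ValuationSubring Qbar) : LevelPred M p A :=
  fun K _ _ S₂ ϖ fK => M4NormF M p A K S₂ fK ∧ SSVanish M p A K S₂ ϖ fK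

/-- **`LamZ` of record**: `Λ_∞(f_K) = 0`. -/
def lamZ (M p : ℕ) [NeZero M] [Fact p.Prime] (A : ValuationSubring Qbar) : LevelPred M p A :=
  lamInfZ M p A

section Lemmas

variable {M p : ℕ} [NeZero M] [Fact p.Prime] {A : ValuationSubring Qbar}
  {K : IntermediateField ℚ Qbar} {hK : IsGoodLevel A p K}
  [IsDiscreteValuationRing ↥(baseRing A K)]
  {S₂ : Fermat.Agent.P3G.FibreTwo.SecondVal (Lvl K) M p (baseRing A K)}
  {ϖ : ↥(baseRing A K)} {fK : FF (Lvl K) (M * p)}

theorem norm_iff :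
    norm M p A K hK S₂ ϖ fK ↔ M4NormF M p A K S₂ fK ∧ SSVanish M p A K S₂ ϖ fK := Iff.rfl

theorem norm_of (h₁ : M4NormF M p A K S₂ fK) (h₂ : SSVanish M p A K S₂ ϖ fK) :
    norm M p A K hK S₂ ϖ fK := ⟨h₁, h₂⟩

theorem lamZ_iff :
    lamZ M p A K hK S₂ ϖ fK ↔ ∀ (hϖ : Irreducible ϖ)
      (_ : CharP (IsLocalRing.ResidueField ↥(baseRing A K)) p),
      Lambda.lamInf (Lvl K) M p (baseRing A K) hϖ fK = 0 := Iff.rfl

/-- `¬ LamZ` for the uniformiser and the `CharP` instance at hand. -/
theorem lamInf_ne_zero_of_not_lamZ (hϖ : Irreducible ϖ)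
    [inst : CharP (IsLocalRing.ResidueField ↥(baseRing A K)) p]
    (h : ¬ lamZ M p A K hK S₂ ϖ fK) :
    Lambda.lamInf (Lvl K) M p (baseRing A K) hϖ fK ≠ 0 := by
  intro h0
  apply h
  intro hϖ' inst'
  obtain rfl : inst = inst' := Subsingleton.elim _ _
  exact h0

end Lemmas

/-! ### `T4Out` -/

section T4

variable {M p : ℕ} [NeZero M] [NeZero p] [Fact p.Prime] {A : ValuationSubring Qbar}

/-- ★ **`T4Out` for the pair of record** ([M4], `M4/Final.t4Out_final_lam`). -/
theorem t4Out (hpM : ¬ p ∣ M) (hA : A.LiesOverPrime p) :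
    T4Out (norm M p A) (lamZ M p A) :=
  t4Out_final_lam hpM hA (fun _ _ _ _ _ _ _ hN => hN.1)
    (fun _ _ _ _ _ hϖ inst _ _ hL => hL hϖ inst)

end T4

end Fermat.Agent.S40.New.Norm
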