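/-
S40/S44 (row 38, `moonshots` rows 62–67), leaf T5-ASM (helper15): **the contract `T5′` for the pair
`(Norm, LamZ)` of record** (`New/Norm`), with NO hypothesis left.

`x ∈ Wθ` at level `M p`, `f_K` a NORMALISED representative of `x` at a good level `K`
(`Norm.norm`: bi-unit, `K`-rational zeros and poles, `m^∞_s(f_K) = 0` at the supersingular places)
with `Λ_∞(f_K) ≠ 0`.  Then

* (F4) + (n6′) : `ḡ := f̄_∞ ∈ FF κ M` is locally (unit) × (`p`-th power) on both affine charts of the
  special fibre (`W/F4Good.isLocPthPowerOn_acInfF_good`, helper26);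
* (DLOG) : `θ ḡ / ḡ ∈ cuspSpan M κ` (`W/MainCharts`, helper28, with `HA` = `W/FormsHoloAlg.hA`
  (helper27) and `HB` = `W/HoloLeQ.finrank_holo_le` (helper27/helper13));
* Hecke + Deligne–Serre : `Top/OfGauss.isResiduallyModularOfLevel_of_dlog` (helper7/helper4).

* `dlog_mem_cuspSpan_good` : (DLOG) at a good level;
* ★ `t5Out` : `Pack.T5Out (Norm.norm M p A) (Norm.lamZ M p A) W`.
-/
import Mathlib
import Fermat.Agent.S40.New.Norm
import Fermat.Agent.S40.Top.OfGauss
import Fermat.Agent.S40.W.MainCharts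
import Fermat.Agent.S40.W.FormsHoloAlg
import Fermat.Agent.S40.W.HoloLeQ

set_option autoImplicit false
set_option linter.unusedSectionVars false
set_option linter.unusedVariables false
set_option linter.dupNamespace false
set_option linter.style.haveILetI false
set_option linter.style.longLine false

open ModularCurve AlgebraicCurve IntermediateField

noncomputable section

namespace Fermat.Agent.S40.New.T5

open Fermat.Agent.N4.Setting Fermat.Agent.N4.Chart Fermat.Agent.N4.S18Glue Fermat.Agent.N4.BigDVR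
  Fermat.Agent.N4.FibreEmbedding
  Fermat.Agent.P3G.Assembly.StepOfLevel Fermat.Agent.P3G.Assembly.LevelStep
  Fermat.Agent.N4F.C Fermat.Agent.N4F.C.Levels Fermat.Agent.N4F.C.Galois
  Fermat.Agent.N4F.C.ChartFibre
  Fermat.Agent.N4F.E.GaussDVR Fermat.Agent.S33.L.Contracts
  Fermat.Agent.N4F.Res Fermat.Agent.P3G
  Fermat.Agent.S40.Top.Eigen
  Fermat.Agent.S40.New.Pack Fermat.Agent.S40.New.Norm Fermat.Agent.S40.M4.Final
  Fermat.Agent.S40.W Fermat.Agent.S40.W.ThetaLog Fermat.Agent.S40.W.CuspSpan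
  Fermat.Agent.S40.W.DlogHolo

local notation "Qbar" => AlgebraicClosure ℚ

section Dlog

open scoped Fermat.Agent.S40.W.FFSetting Fermat.Agent.S40.W.Setting

set_option maxHeartbeats 1600000 in
set_option synthInstance.maxHeartbeats 400000 in
/-- **(DLOG) at a good level**: `g ≠ 0` in the function field of the special fibre of `X₀(M)`, locally
(unit) × (`p`-th power) on both affine charts: then `θ g / g ∈ cuspSpan M κ`. -/
theorem dlog_mem_cuspSpan_good (M p : ℕ) [NeZero M] [Fact p.Prime] (hpM : ¬ p ∣ M)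
    (A : ValuationSubring Qbar) (hA : A.LiesOverPrime p)
    (K : IntermediateField ℚ Qbar) (hK : IsGoodLevel A p K)
    [IsDiscreteValuationRing ↥(baseRing A K)]
    [CharP (IsLocalRing.ResidueField ↥(baseRing A K)) p]
    {g : FF (IsLocalRing.ResidueField ↥(baseRing A K)) M} (hg : g ≠ 0)
    (hfin : IsLocPthPowerOn (FF (IsLocalRing.ResidueField ↥(baseRing A K)) M)
      ↥(SigmaFin (IsLocalRing.ResidueField ↥(baseRing A K)) M) p g)
    (hinf : IsLocPthPowerOn (FF (IsLocalRing.ResidueField ↥(baseRing A K)) M)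
      ↥(SigmaInf (IsLocalRing.ResidueField ↥(baseRing A K)) M) p g) :
    dlog (IsLocalRing.ResidueField ↥(baseRing A K))
        ((g : FF (IsLocalRing.ResidueField ↥(baseRing A K)) M) :
          LaurentSeries (IsLocalRing.ResidueField ↥(baseRing A K))) ∈
      cuspSpan M (IsLocalRing.ResidueField ↥(baseRing A K)) := by
  have hq : p.Prime := Fact.out
  haveI : IsAlgClosed (IsLocalRing.ResidueField ↥(baseRing A K)) := hK.algClosed
  haveI : PerfectField (IsLocalRing.ResidueField ↥(baseRing A K)) := inferInstance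
  have hGB : GoodBase (Lvl K) M (baseRing A K) p := ⟨hq, hpM, inferInstance, hK.not_unit⟩
  have hstar := LevelStatements.starStatement_lvl hq hA K hGB hK.roots
  have hsmooth := LevelStatements.smoothStatement_lvl hq hA hpM K hGB hK.roots
  have hN : IsUnit ((M : ℕ) : ↥(baseRing A K)) :=
    Fermat.Agent.P3G.GammaUnits.isUnit_natCast_baseRing K hq hA hpM
  haveI : FiniteDimensional (RatFunc (Lvl K)) (FF (Lvl K) M) :=
    FFSetting.finiteDimensional_ratFunc_of_charZero (Lvl K) M
  haveI : Algebra.IsSeparable (RatFunc (Lvl K)) (FF (Lvl K) M) :=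
    FFSetting.isSeparable_ratFunc_of_charZero (Lvl K) M
  exact MainCharts.dlog_mem_cuspSpan_level_of_charts (Lvl K) M (baseRing A K) hN p hstar hsmooth
    (FormsHoloAlg.hA (Lvl K) (Fermat.Agent.P3G.GammaV2.lvlToComplex K) M (baseRing A K))
    (HoloLeQ.finrank_holo_le (Lvl K) (Fermat.Agent.P3G.GammaV2.lvlToComplex K) M) hg hfin hinf

end Dlog

section T5

variable {W : WeierstrassCurve ℤ} {M p : ℕ} [NeZero M] [NeZero p] [Fact p.Prime]
  {A : ValuationSubring Qbar}

set_option maxHeartbeats 1600000 in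
set_option synthInstance.maxHeartbeats 400000 in
/-- ★ **T5′ for the pair of record.**  A normalised representative with `Λ_∞ ≠ 0` of a class in `Wθ`
gives `W.IsResiduallyModularOfLevel p M`. -/
theorem t5Out (hpM : ¬ p ∣ M) (hA : A.LiesOverPrime p) :
    T5Out (norm M p A) (lamZ M p A) W := by
  intro x hx K hK _ S₂ ϖ hϖ fK hrep hN hL
  have hq : p.Prime := Fact.out
  haveI : IsAlgClosed (IsLocalRing.ResidueField ↥(baseRing A K)) := hK.algClosed
  haveI : CharP (IsLocalRing.ResidueField ↥(baseRing A K)) p := F4Good.charP_good M p hpM A K hK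
  haveI : PerfectRing (IsLocalRing.ResidueField ↥(baseRing A K)) p := inferInstance
  obtain ⟨-, -, -, -, -, hA2⟩ := F4Good.levelFacts_good M p hpM A hA K hK
  obtain ⟨⟨-, hv₁, -, -, -, hrat⟩, hss⟩ := hN
  obtain ⟨hf0, hdiv⟩ := Fermat.Agent.S40.M4.LGLevel.ne_zero_and_dvd_of_isRep hrep
  -- (F4) + (n6′): local `p`-th powers on both charts
  obtain ⟨hfin, hinf⟩ := F4Good.isLocPthPowerOn_acInfF_good M p hpM A hA K hK hA2 S₂ ϖ hϖ hf0 hv₁
    hdiv hrat (hss hpM hϖ inferInstance hA2)
  -- (DLOG)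
  have hg0 := Lambda.acInfF_ne_zero (Lvl K) M p (baseRing A K) (SecondValBridge.ofTwo S₂)
    (Fermat.Agent.P3G.GammaV2.lvlToComplex K) hpM hA2 hϖ hf0
  have hcusp := dlog_mem_cuspSpan_good M p hpM A hA K hK hg0 hfin hinf
  rw [Lambda.coe_acInfF] at hcusp
  -- `f̄_∞ = θ f_K`
  have hfK : fK ∈ gaussSubalgebra (Lvl K) (M * p) (baseRing A K) :=
    F4Level.mem_gauss_of_valuation_eq_one (Lvl K) M p (baseRing A K) hv₁
  have hθ : theta (Lvl K) (M * p) (baseRing A K) ⟨fK, hfK⟩ ≠ 0 := fun h =>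
    F4Place.redG_ne_zero (Lvl K) M p (baseRing A K) (Fermat.Agent.P3G.GammaV2.lvlToComplex K) hpM
      hA2 S₂ hv₁ (Subtype.ext h)
  have hac : Lambda.acInf (Lvl K) M p (baseRing A K) hϖ fK =
      theta (Lvl K) (M * p) (baseRing A K) ⟨fK, hfK⟩ :=
    Lambda.acG_of_theta_ne_zero (Lvl K) (M * p) (baseRing A K) hϖ hfK hθ
  have hne := lamInf_ne_zero_of_not_lamZ hϖ hL
  rw [Lambda.lamInf_def] at hne
  rw [hac] at hcusp hne
  obtain ⟨D, hD, hdivD⟩ := hrep
  exact Fermat.Agent.S40.Top.OfGauss.isResiduallyModularOfLevel_of_dlog W A hq hA x hx D hD.symm K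
    fK hdivD hfK hθ hcusp hne

end T5

end Fermat.Agent.S40.New.T5
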